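import Fermat.Agent.S17.H.X2.Defs
import Fermat.Agent.S17.H.FinAlg

/-!
# S17, part H, block X2, node A2: determinants on a fibre

`Disc(α) = det (y_j(P_i))²`, the projective Vandermonde determinant of a pencil on a fibre, and the
product over the ordered pairs of distinct points of an unramified fibre.
-/

set_option autoImplicit false

noncomputable section

open scoped Classical

namespace Fermat.Agent.S17.H.X2

open Polynomial

variable {K : Type} [Field K] {A : Type} [CommRing A] [Algebra K A] {t : A} {d : ℕ}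
  {y : Fin d → A} (hy : ∀ f : A, ∃! p : Fin d → K[X], f = ∑ j, aeval t (p j) * y j)

/-- A2a: enumeration of the fibre with multiplicities, trace formula. -/
theorem exists_enum [IsAlgClosed K] (α : K) : ∃ e : Fin d → (A →ₐ[K] K),
    (∀ Q : A →ₐ[K] K, (∃ i, e i = Q) ↔ Q t = α) ∧ ∀ f : A, (Tr hy f).eval α = ∑ i, e i f := by
  obtain ⟨F, hc, hmem, -, -, htr⟩ :=
    Fermat.Agent.S17.H.exists_fibre_of_free' t y hy (mm hy) (mul_y_eq hy) α
  have hl : F.toList.length = d := by rw [Multiset.length_toList, hc]
  refine ⟨fun i => F.toList.get (i.cast hl.symm), ?_, ?_⟩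
  · intro Q
    rw [← hmem Q, ← Multiset.mem_toList, List.mem_iff_get]
    constructor
    · rintro ⟨i, hi⟩
      exact ⟨i.cast hl.symm, hi⟩
    · rintro ⟨n, hn⟩
      exact ⟨n.cast hl, by simpa using hn⟩
  · intro f
    show (mm hy f).trace.eval α = _
    rw [htr f]
    have h1 : (F.map fun Q => Q f).sum = (F.toList.map fun Q => Q f).sum := by
      conv_lhs => rw [← Multiset.coe_toList F]
      rw [Multiset.map_coe, Multiset.sum_coe]
    rw [h1, ← Fin.sum_univ_fun_getElem]
    exact (Fintype.sum_equiv (finCongr hl.symm) _ _ fun i => rfl).symm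

/-- A2b: `Disc(α) = det (y_j(P_i))²`. -/
theorem Disc_eval (α : K) (e : Fin d → (A →ₐ[K] K))
    (he : ∀ f : A, (Tr hy f).eval α = ∑ i, e i f) :
    (Disc hy).eval α = (Matrix.det fun i j => e i (y j)) ^ 2 := by
  set Y : Matrix (Fin d) (Fin d) K := fun i j => e i (y j) with hY
  have h1 : (Disc hy).eval α = Matrix.det (Y.transpose * Y) := by
    have h2 := RingHom.map_det (evalRingHom α) (fun i j : Fin d => Tr hy (y i * y j))
    rw [coe_evalRingHom] at h2
    unfold Disc
    rw [h2]
    congr 1
    ext i j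
    rw [Matrix.mul_apply]
    show (Tr hy (y i * y j)).eval α = ∑ k, e k (y i) * e k (y j)
    rw [he]
    exact Finset.sum_congr rfl fun k _ => map_mul _ _ _
  rw [h1, Matrix.det_mul, Matrix.det_transpose, sq]

/-- A2c: the projective Vandermonde determinant of the pencil on the fibre. -/
theorem det_pencil (α : K) (e : Fin d → (A →ₐ[K] K)) (he : ∀ i, e i t = α) (a c : A) :
    ∏ i, ∏ j ∈ Finset.Ioi i, (e j c * e i a - e i c * e j a) =
      (Matrix.det fun i j => e i (y j)) * (Jdet hy a c).eval α := by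
  set Y : Matrix (Fin d) (Fin d) K := fun i j => e i (y j) with hY
  have h1 : Matrix.projVandermonde (fun i => e i c) (fun i => e i a) =
      Y * ((evalRingHom α).mapMatrix (Jmat hy a c)).transpose := by
    ext i j
    rw [Matrix.projVandermonde_apply, Matrix.mul_apply]
    have h2 := apply_eq_sum hy (e i) (pen a c j)
    rw [he i] at h2
    unfold pen at h2
    rw [map_mul, map_pow, map_pow] at h2
    rw [h2]
    refine Finset.sum_congr rfl fun k _ => ?_
    show (co hy (c ^ (j : ℕ) * a ^ (j.rev : ℕ)) k).eval α * e i (y k) =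
      e i (y k) * (co hy (pen a c j) k).eval α
    rw [mul_comm]
    rfl
  rw [← Matrix.det_projVandermonde, h1, Matrix.det_mul, Matrix.det_transpose]
  congr 1
  exact (RingHom.map_det (evalRingHom α) (Jmat hy a c)).symm

/-- over an unramified point the enumeration of the fibre is injective. -/
theorem FibreDet_injective (α : K) (hα : (Disc hy).eval α ≠ 0) (e : Fin d → (A →ₐ[K] K))
    (he : ∀ f : A, (Tr hy f).eval α = ∑ i, e i f) : Function.Injective e := by
  intro i j hij
  by_contra hne
  apply hα
  rw [Disc_eval hy α e he, Matrix.det_zero_of_row_eq hne (by rw [hij])]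
  simp

/-- A2d: unramified fibres. -/
theorem exists_finset_fibre [IsAlgClosed K] (α : K) (hα : (Disc hy).eval α ≠ 0) :
    ∃ F : Finset (A →ₐ[K] K), (∀ P, P ∈ F ↔ P t = α) ∧ F.card = d := by
  obtain ⟨e, he1, he2⟩ := exists_enum hy α
  have hinj := FibreDet_injective hy α hα e he2
  refine ⟨Finset.univ.image e, fun P => ?_, ?_⟩
  · rw [← he1 P]
    simp
  · rw [Finset.card_image_of_injective _ hinj]
    simp

/-- a product over ordered pairs of distinct indices of a symmetric function. -/
theorem FibreDet_prod_offDiag_symm {M : Type} [CommMonoid M] (G : Fin d → Fin d → M)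
    (hG : ∀ i j, G i j = G j i) :
    ∏ p ∈ (Finset.univ : Finset (Fin d)).offDiag, G p.1 p.2 =
      (∏ i, ∏ j ∈ Finset.Ioi i, G i j) * (∏ i, ∏ j ∈ Finset.Ioi i, G i j) := by
  rw [← Finset.prod_filter_mul_prod_filter_not _ (fun p : Fin d × Fin d => p.1 < p.2)]
  congr 1
  · refine Finset.prod_finset_product' _ _ _ fun p => ?_
    simp only [Finset.mem_filter, Finset.mem_offDiag, Finset.mem_univ, true_and, Finset.mem_Ioi]
    exact ⟨fun h => h.2, fun h => ⟨h.ne, h⟩⟩
  · rw [Finset.prod_finset_product_right' _ Finset.univ (fun i => Finset.Ioi i) fun p => ?_]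
    · exact Finset.prod_congr rfl fun i _ => Finset.prod_congr rfl fun j _ => hG j i
    · simp only [Finset.mem_filter, Finset.mem_offDiag, Finset.mem_univ, true_and,
        Finset.mem_Ioi, not_lt]
      exact ⟨fun h => lt_of_le_of_ne h.2 (Ne.symm h.1), fun h => ⟨h.ne', h.le⟩⟩

/-- A2e: the product over the ordered pairs of distinct points of an unramified fibre. -/
theorem prod_offDiag [IsAlgClosed K] (abv : AbsoluteValue K ℝ) (α : K)
    (hα : (Disc hy).eval α ≠ 0) (F : Finset (A →ₐ[K] K)) (hF : ∀ P, P ∈ F ↔ P t = α) (a c : A) :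
    ∏ x ∈ F.offDiag, abv (x.1 a * x.2 c - x.1 c * x.2 a) =
      abv ((Disc hy).eval α) * abv ((Jdet hy a c).eval α) ^ 2 := by
  obtain ⟨e, he1, he2⟩ := exists_enum hy α
  have hinj := FibreDet_injective hy α hα e he2
  have het : ∀ i, e i t = α := fun i => (he1 (e i)).1 ⟨i, rfl⟩
  have hFo : F.offDiag = (Finset.univ : Finset (Fin d)).offDiag.image
      (fun p : Fin d × Fin d => (e p.1, e p.2)) := by
    ext ⟨P, Q⟩
    simp only [Finset.mem_offDiag, Finset.mem_image, Finset.mem_univ, true_and, Prod.exists,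
      Prod.mk.injEq, hF]
    constructor
    · rintro ⟨hP, hQ, hne⟩
      obtain ⟨i, rfl⟩ := (he1 P).2 hP
      obtain ⟨j, rfl⟩ := (he1 Q).2 hQ
      exact ⟨i, j, fun h => hne (by rw [h]), rfl, rfl⟩
    · rintro ⟨i, j, hne, rfl, rfl⟩
      exact ⟨het i, het j, fun h => hne (hinj h)⟩
  rw [hFo, Finset.prod_image (fun p _ p' _ h => by
    have h1 := hinj (congrArg Prod.fst h)
    have h2 := hinj (congrArg Prod.snd h)
    exact Prod.ext h1 h2)]
  rw [FibreDet_prod_offDiag_symm (fun i j => abv (e i a * e j c - e i c * e j a)) (fun i j => by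
    rw [← abv.map_neg]
    congr 1
    ring)]
  have hT : ∏ i, ∏ j ∈ Finset.Ioi i, abv (e i a * e j c - e i c * e j a) =
      abv ((Matrix.det fun i j => e i (y j)) * (Jdet hy a c).eval α) := by
    rw [← det_pencil hy α e het a c, map_prod]
    refine Finset.prod_congr rfl fun i _ => ?_
    rw [map_prod]
    refine Finset.prod_congr rfl fun j _ => ?_
    rw [mul_comm (e i a)]
  rw [hT, Disc_eval hy α e he2, map_mul, map_pow]
  ring

end Fermat.Agent.S17.H.X2
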