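import Mathlib

/-!
# S17 / H / X2, node W1: determinants over `K[X]` with weighted rows and columns

Owner: helper211 (task 1753).  Mathlib only.
-/

set_option autoImplicit false

noncomputable section

open scoped Classical

namespace Fermat.Agent.S17.H.X2

open Polynomial

variable {K : Type} [Field K] {d : ℕ}

/-- one term of the Leibniz formula: weighted degree inequality. -/
theorem weightedDet_term (M : Matrix (Fin d) (Fin d) K[X]) (e : ℕ)
    (n μ : Fin d → ℕ)
    (h : ∀ i j, M i j ≠ 0 → e * (M i j).natDegree + μ j ≤ n i)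
    (σ : Equiv.Perm (Fin d)) (hσ : ∀ i, M (σ i) i ≠ 0) :
    (∏ i, M (σ i) i).natDegree = ∑ i, (M (σ i) i).natDegree ∧
      e * (∑ i, (M (σ i) i).natDegree) + ∑ j, μ j ≤ ∑ i, n i := by
  refine ⟨natDegree_prod _ _ fun i _ => hσ i, ?_⟩
  rw [Finset.mul_sum, ← Finset.sum_add_distrib, ← Equiv.sum_comp σ n]
  exact Finset.sum_le_sum fun i _ => h (σ i) i (hσ i)

theorem weightedDet_natDegree_term_le (M : Matrix (Fin d) (Fin d) K[X]) (e D : ℕ) (he : 0 < e)
    (n μ : Fin d → ℕ) (hD : e * D + ∑ j, μ j = ∑ i, n i)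
    (h : ∀ i j, M i j ≠ 0 → e * (M i j).natDegree + μ j ≤ n i)
    (σ : Equiv.Perm (Fin d)) : (∏ i, M (σ i) i).natDegree ≤ D := by
  by_cases hσ : ∀ i, M (σ i) i ≠ 0
  · obtain ⟨h1, h2⟩ := weightedDet_term M e n μ h σ hσ
    rw [h1]
    rw [← hD] at h2
    exact Nat.le_of_mul_le_mul_left (Nat.le_of_add_le_add_right h2) he
  · push Not at hσ
    obtain ⟨i, hi⟩ := hσ
    have h0 : ∏ i, M (σ i) i = 0 := Finset.prod_eq_zero (f := fun i => M (σ i) i) (Finset.mem_univ i) hi
    rw [h0, natDegree_zero]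
    exact Nat.zero_le _

theorem weightedDet_sign_smul (σ : Equiv.Perm (Fin d)) (p : K[X]) :
    Equiv.Perm.sign σ • p = p ∨ Equiv.Perm.sign σ • p = -p := by
  rcases Int.units_eq_one_or (Equiv.Perm.sign σ) with h | h
  · left; rw [h, one_smul]
  · right; rw [h, Units.neg_smul, one_smul]

/-- W1a: degree of a determinant with weighted rows and columns. -/
theorem natDegree_det_le_of_weights (M : Matrix (Fin d) (Fin d) K[X]) (e D : ℕ) (he : 0 < e)
    (n μ : Fin d → ℕ) (hD : e * D + ∑ j, μ j = ∑ i, n i)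
    (h : ∀ i j, M i j ≠ 0 → e * (M i j).natDegree + μ j ≤ n i) : M.det.natDegree ≤ D := by
  rw [Matrix.det_apply]
  refine natDegree_sum_le_of_forall_le _ _ fun σ _ => ?_
  have h1 := weightedDet_natDegree_term_le M e D he n μ hD h σ
  rcases weightedDet_sign_smul σ (∏ i, M (σ i) i) with h2 | h2
  · rw [h2]; exact h1
  · rw [h2, natDegree_neg]; exact h1

/-- W1b: top coefficient of a determinant with weighted rows and columns. -/
theorem coeff_det_ne_zero_of_weights (M : Matrix (Fin d) (Fin d) K[X]) (e D : ℕ) (he : 0 < e)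
    (n μ : Fin d → ℕ) (hD : e * D + ∑ j, μ j = ∑ i, n i)
    (h : ∀ i j, M i j ≠ 0 → e * (M i j).natDegree + μ j ≤ n i)
    (π : Equiv.Perm (Fin d))
    (h1 : ∀ i, M i (π i) ≠ 0 ∧ e * (M i (π i)).natDegree + μ (π i) = n i)
    (h2 : ∀ i j, j ≠ π i → M i j ≠ 0 → e * (M i j).natDegree + μ j ≠ n i) :
    M.det.coeff D ≠ 0 := by
  rw [Matrix.det_apply, finsetSum_coeff]
  rw [Finset.sum_eq_single π.symm]
  · -- the main term
    have hσ : ∀ i, M (π.symm i) i ≠ 0 := fun i => by
      have := (h1 (π.symm i)).1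
      rwa [Equiv.apply_symm_apply] at this
    have hdeg : ∀ i, e * (M (π.symm i) i).natDegree + μ i = n (π.symm i) := fun i => by
      have := (h1 (π.symm i)).2
      rwa [Equiv.apply_symm_apply] at this
    have hne : ∏ i, M (π.symm i) i ≠ 0 := Finset.prod_ne_zero_iff.mpr fun i _ => hσ i
    have hnat : (∏ i, M (π.symm i) i).natDegree = D := by
      rw [natDegree_prod _ _ fun i _ => hσ i]
      have h3 : e * (∑ i, (M (π.symm i) i).natDegree) + ∑ j, μ j = ∑ i, n i := by
        rw [Finset.mul_sum, ← Finset.sum_add_distrib, ← Equiv.sum_comp π.symm n]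
        exact Finset.sum_congr rfl fun i _ => hdeg i
      rw [← hD] at h3
      exact Nat.eq_of_mul_eq_mul_left he (Nat.add_right_cancel h3)
    have hc : (∏ i, M (π.symm i) i).coeff D ≠ 0 := by
      rw [← hnat]
      exact leadingCoeff_ne_zero.mpr hne
    rcases weightedDet_sign_smul π.symm (∏ i, M (π.symm i) i) with h3 | h3
    · rw [h3]; exact hc
    · rw [h3, coeff_neg]; exact neg_ne_zero.mpr hc
  · -- the other terms
    intro σ _ hσne
    have hc : (∏ i, M (σ i) i).coeff D = 0 := by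
      by_cases hσ : ∀ i, M (σ i) i ≠ 0
      · apply coeff_eq_zero_of_natDegree_lt
        rw [natDegree_prod _ _ fun i _ => hσ i]
        obtain ⟨j, hj⟩ : ∃ j, j ≠ π (σ j) := by
          by_contra hcon
          push Not at hcon
          apply hσne
          refine Equiv.ext fun j => ?_
          exact (Equiv.eq_symm_apply π).mpr (hcon j).symm
        have h3 : e * (∑ i, (M (σ i) i).natDegree) + ∑ j, μ j < ∑ i, n i := by
          rw [Finset.mul_sum, ← Finset.sum_add_distrib, ← Equiv.sum_comp σ n]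
          refine Finset.sum_lt_sum (fun i _ => h (σ i) i (hσ i)) ⟨j, Finset.mem_univ j, ?_⟩
          exact lt_of_le_of_ne (h (σ j) j (hσ j)) (h2 (σ j) j hj (hσ j))
        rw [← hD] at h3
        exact Nat.lt_of_mul_lt_mul_left (Nat.lt_of_add_lt_add_right h3)
      · push Not at hσ
        obtain ⟨i, hi⟩ := hσ
        have h0 : ∏ i, M (σ i) i = 0 :=
          Finset.prod_eq_zero (f := fun i => M (σ i) i) (Finset.mem_univ i) hi
        rw [h0, coeff_zero]
    rcases weightedDet_sign_smul σ (∏ i, M (σ i) i) with h3 | h3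
    · rw [h3]; exact hc
    · rw [h3, coeff_neg, hc, neg_zero]
  · intro hcon
    exact absurd (Finset.mem_univ _) hcon

end Fermat.Agent.S17.H.X2
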