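import Fermat.Agent.S17.H.X2.Defs
import Fermat.Agent.S17.H.X2.WeightedDet
import Fermat.Agent.S17.H.NormBasic

/-!
# S17 / H / X2, node W2: the degree of `Jdet a c`

`deg Jdet(a, c) ≤ (d - 1)(m - 1) - g` for `a ∈ V_{m-1}`, `c ∈ V_m`, and the coefficient of that degree
is not zero when `a`, `c` have exact weights `m - 1`, `m`.  Task 1754 (helper146).
-/

set_option autoImplicit false

noncomputable section

open scoped Classical

namespace Fermat.Agent.S17.H.X2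

open Polynomial

variable {A : Type} [CommRing A] [Algebra Qb A] (C : WCurve A)

theorem g_le {m : ℕ} (hm : C.g + 1 ≤ m) : C.g ≤ (C.d - 1) * (m - 1) := by
  have hd := d_pos C
  rcases Nat.lt_or_ge 1 C.d with h | h
  · calc C.g ≤ 1 * (m - 1) := by omega
      _ ≤ (C.d - 1) * (m - 1) := Nat.mul_le_mul_right _ (by omega)
  · have h1 : C.d = 1 := by omega
    have h2 : ∑ j, C.ρ (ap C j) = 0 := Finset.sum_eq_zero fun j _ => by
      have hj : (j : ℕ) = 0 := by
        have := j.2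
        omega
      have h0 : ap C j ≤ 0 := Nat.sInf_le (by
        show C.ρ 0 % C.d = j
        rw [C.ρ_zero, hj, Nat.zero_mod])
      rw [Nat.le_zero.1 h0, C.ρ_zero]
    have h3 := sum_rho_ap C
    rw [h2, h1] at h3
    omega

/-- the weight of the `i`-th row. -/
theorem jdetDegree_row {m : ℕ} (hm : 1 ≤ m) (i : Fin C.d) :
    (i : ℕ) * m + (i.rev : ℕ) * (m - 1) = (C.d - 1) * (m - 1) + i := by
  obtain ⟨M, rfl⟩ : ∃ M, m = M + 1 := ⟨m - 1, by omega⟩
  have h1 : (i : ℕ) + (i.rev : ℕ) = C.d - 1 := by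
    rw [Fin.val_rev]
    have := i.2
    omega
  rw [← h1, Nat.add_sub_cancel]
  ring

theorem jdetDegree_hD {m : ℕ} (hm : C.g + 1 ≤ m) :
    C.d * ((C.d - 1) * (m - 1) - C.g) + ∑ j, C.ρ (ap C j) =
      ∑ i : Fin C.d, ((C.d - 1) * (m - 1) + (i : ℕ)) := by
  have h1 := g_le C hm
  have h2 := sum_rho_ap C
  have h3 : (∑ i : Fin C.d, (i : ℕ)) * 2 = C.d * (C.d - 1) := by
    rw [Fin.sum_univ_eq_sum_range (fun i => i), Finset.sum_range_id_mul_two]
  rw [Finset.sum_add_distrib, Finset.sum_const, Finset.card_univ, Fintype.card_fin, smul_eq_mul]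
  obtain ⟨D, hD⟩ : ∃ D, (C.d - 1) * (m - 1) = D + C.g := ⟨_, (Nat.sub_add_cancel h1).symm⟩
  rw [hD, Nat.add_sub_cancel]
  linarith

theorem jdetDegree_pen_mem {m : ℕ} (hm : 1 ≤ m) {a c : A} (ha : a ∈ C.V (m - 1)) (hc : c ∈ C.V m)
    (i : Fin C.d) : pen a c i ∈ C.V ((C.d - 1) * (m - 1) + i) := by
  rw [← jdetDegree_row C hm i]
  exact mul_mem_V C (pow_mem_V C hc _) (pow_mem_V C ha _)

variable (hy : ∀ f : A, ∃! p : Fin C.d → Qb[X], f = ∑ j, aeval C.t (p j) * C.b (ap C j))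

theorem jdetDegree_le
    (hwt : ∀ (p : Fin C.d → Qb[X]) (j : Fin C.d), p j ≠ 0 →
      C.d * (p j).natDegree + C.ρ (ap C j) ≤ C.wt (∑ j, aeval C.t (p j) * C.b (ap C j)))
    (f : A) (j : Fin C.d) (hj : co hy f j ≠ 0) :
    C.d * (co hy f j).natDegree + C.ρ (ap C j) ≤ C.wt f := by
  have := hwt (co hy f) j hj
  rwa [← co_spec hy f] at this

/-- the top term of a nonzero function. -/
theorem jdetDegree_exists_top
    (hwt : ∀ (p : Fin C.d → Qb[X]) (j : Fin C.d), p j ≠ 0 →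
      C.d * (p j).natDegree + C.ρ (ap C j) ≤ C.wt (∑ j, aeval C.t (p j) * C.b (ap C j)))
    {f : A} (hf : f ≠ 0) :
    ∃ j, co hy f j ≠ 0 ∧ C.d * (co hy f j).natDegree + C.ρ (ap C j) = C.wt f := by
  by_contra hcon
  push Not at hcon
  have hlt : ∀ j, co hy f j ≠ 0 → C.d * (co hy f j).natDegree + C.ρ (ap C j) < C.wt f :=
    fun j hj => lt_of_le_of_ne (jdetDegree_le C hy hwt f j hj) (hcon j hj)
  obtain ⟨j₀, hj₀⟩ : ∃ j, co hy f j ≠ 0 := by
    by_contra h0
    push Not at h0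
    exact hf ((co_eq_zero_iff hy).1 (funext h0))
  have h1 := hlt j₀ hj₀
  have h2 := wt_apery_le C (co hy f) (C.wt f - 1) fun j hj => by
    have := hlt j hj
    omega
  rw [← co_spec hy f] at h2
  omega

theorem jdetDegree_class (j : Fin C.d) (k : ℕ) : (C.d * k + C.ρ (ap C j)) % C.d = j := by
  rw [Nat.mul_add_mod, ap_spec]

/-- W2a (`hwt` is the node `wt_apery` of block AP). -/
theorem natDegree_Jdet_le
    (hwt : ∀ (p : Fin C.d → Qb[X]) (j : Fin C.d), p j ≠ 0 →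
      C.d * (p j).natDegree + C.ρ (ap C j) ≤ C.wt (∑ j, aeval C.t (p j) * C.b (ap C j)))
    {m : ℕ} (hm : C.g + 1 ≤ m) {a c : A} (ha : a ∈ C.V (m - 1))
    (hc : c ∈ C.V m) : (Jdet hy a c).natDegree ≤ (C.d - 1) * (m - 1) - C.g :=
  natDegree_det_le_of_weights (Jmat hy a c) C.d _ (d_pos C)
    (fun i : Fin C.d => (C.d - 1) * (m - 1) + (i : ℕ)) (fun j => C.ρ (ap C j))
    (jdetDegree_hD C hm) fun i j hij =>
      (jdetDegree_le C hy hwt (pen a c i) j hij).trans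
        ((mem_V_iff C _ _).1 (jdetDegree_pen_mem C (by omega) ha hc i))

/-- W2b (`hwt` is the node `wt_apery` of block AP). -/
theorem coeff_Jdet_ne_zero
    (hwt : ∀ (p : Fin C.d → Qb[X]) (j : Fin C.d), p j ≠ 0 →
      C.d * (p j).natDegree + C.ρ (ap C j) ≤ C.wt (∑ j, aeval C.t (p j) * C.b (ap C j)))
    {m : ℕ} (hm : C.g + 2 ≤ m) {a c : A} (ha : C.wt a = m - 1)
    (hc : C.wt c = m) : (Jdet hy a c).coeff ((C.d - 1) * (m - 1) - C.g) ≠ 0 := by
  have := isDomain C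
  have ha0 : a ≠ 0 := by
    rintro rfl
    rw [wt_zero] at ha
    omega
  have hc0 : c ≠ 0 := by
    rintro rfl
    rw [wt_zero] at hc
    omega
  have hpen0 : ∀ i : Fin C.d, pen a c i ≠ 0 := fun i =>
    mul_ne_zero (pow_ne_zero _ hc0) (pow_ne_zero _ ha0)
  have hwpen : ∀ i : Fin C.d, C.wt (pen a c i) = (C.d - 1) * (m - 1) + (i : ℕ) := fun i => by
    rw [← jdetDegree_row C (by omega : 1 ≤ m) i]
    unfold pen
    rw [wt_mul C (pow_ne_zero _ hc0) (pow_ne_zero _ ha0), wt_pow, wt_pow, ha, hc]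
  have hcls : ∀ (i j : Fin C.d), C.d * (co hy (pen a c i) j).natDegree + C.ρ (ap C j) =
      (C.d - 1) * (m - 1) + (i : ℕ) → j = NB.shift C ((C.d - 1) * (m - 1)) i := fun i j h => by
    apply Fin.ext
    rw [NB.shift_val, ← h, jdetDegree_class]
  refine coeff_det_ne_zero_of_weights (Jmat hy a c) C.d _ (d_pos C)
    (fun i : Fin C.d => (C.d - 1) * (m - 1) + (i : ℕ)) (fun j => C.ρ (ap C j))
    (jdetDegree_hD C (by omega)) (fun i j hij => ?_) (NB.shift C ((C.d - 1) * (m - 1)))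
    (fun i => ?_) (fun i j hj _ h => hj (hcls i j h))
  · exact (jdetDegree_le C hy hwt (pen a c i) j hij).trans (hwpen i).le
  · obtain ⟨j, hj0, hj⟩ := jdetDegree_exists_top C hy hwt (hpen0 i)
    rw [hwpen i] at hj
    have e := hcls i j hj
    subst e
    exact ⟨hj0, hj⟩

end Fermat.Agent.S17.H.X2
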