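import Fermat.Agent.S17.H.X2.Defs

/-!
# S17, part H, block X2, node A3: a good pencil is independent modulo `t - α`
Owner of this file: helper279.
-/

set_option autoImplicit false

noncomputable section

open scoped Classical

namespace Fermat.Agent.S17.H.X2

open Polynomial

section Abstract

variable {K : Type} [Field K] {A : Type} [CommRing A] [Algebra K A] {t : A} {d : ℕ}
  {y : Fin d → A} (hy : ∀ f : A, ∃! p : Fin d → K[X], f = ∑ j, aeval t (p j) * y j)

/-- A3a: `Jdet(α) ≠ 0` iff the pencil monomials are independent modulo `t - α`. -/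
theorem Jdet_eval_ne_zero (α : K) (a c : A)
    (h : ∀ k : Fin d → K, ∑ i, k i • pen a c i ∈ Ideal.span {t - algebraMap K A α} → k = 0) :
    (Jdet hy a c).eval α ≠ 0 := by
  intro h0
  have hdet : ((evalRingHom α).mapMatrix (Jmat hy a c)).det = 0 := by
    rw [← RingHom.map_det]
    exact h0
  obtain ⟨k, hk0, hk⟩ := Matrix.exists_vecMul_eq_zero_iff.mpr hdet
  apply hk0
  apply h
  have hco : ∀ j, co hy (∑ i, k i • pen a c i) j = ∑ i, C (k i) * co hy (pen a c i) j := by
    intro j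
    rw [co_sum, Finset.sum_apply]
    refine Finset.sum_congr rfl fun i _ => ?_
    rw [co_smul]
  have hroot : ∀ j, (X - C α) ∣ co hy (∑ i, k i • pen a c i) j := by
    intro j
    rw [dvd_iff_isRoot, IsRoot.def, hco, eval_finsetSum]
    have h1 := congrFun hk j
    rw [Matrix.vecMul, dotProduct] at h1
    simp only [eval_mul, eval_C]
    exact h1
  choose q hq using hroot
  rw [Ideal.mem_span_singleton]
  refine ⟨∑ j, aeval t (q j) * y j, ?_⟩
  conv_lhs => rw [co_spec hy (∑ i, k i • pen a c i)]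
  rw [Finset.mul_sum]
  refine Finset.sum_congr rfl fun j _ => ?_
  rw [hq j, map_mul, map_sub, aeval_X, aeval_C, mul_assoc]

/-- the homogenisation of degree `n` of a polynomial, evaluated at `(c, a)`. -/
def PencilIndep.homog (a c : A) (n : ℕ) (p : K[X]) : A :=
  ∑ i ∈ Finset.range (n + 1), p.coeff i • (c ^ i * a ^ (n - i))

theorem PencilIndep.homog_sub (a c : A) (n : ℕ) (p q : K[X]) :
    PencilIndep.homog a c n (p - q) = PencilIndep.homog a c n p - PencilIndep.homog a c n q := by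
  simp only [PencilIndep.homog, coeff_sub, sub_smul, Finset.sum_sub_distrib]

theorem PencilIndep.homog_X_mul (a c : A) (n : ℕ) (q : K[X]) :
    PencilIndep.homog a c (n + 1) (X * q) = c * PencilIndep.homog a c n q := by
  rw [PencilIndep.homog, Finset.sum_range_succ', PencilIndep.homog, Finset.mul_sum]
  rw [mul_coeff_zero, coeff_X_zero, zero_mul, zero_smul, add_zero]
  refine Finset.sum_congr rfl fun i _ => ?_
  rw [coeff_X_mul, Nat.add_sub_add_right, mul_smul_comm, pow_succ']
  ring_nf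

theorem PencilIndep.homog_C_mul (a c : A) (n : ℕ) (l : K) (q : K[X]) (hq : q.natDegree ≤ n) :
    PencilIndep.homog a c (n + 1) (C l * q) = (l • a) * PencilIndep.homog a c n q := by
  rw [PencilIndep.homog, Finset.sum_range_succ, PencilIndep.homog, Finset.mul_sum]
  rw [coeff_C_mul, coeff_eq_zero_of_natDegree_lt (by omega), mul_zero, zero_smul, add_zero]
  refine Finset.sum_congr rfl fun i hi => ?_
  have hi' : i ≤ n := Nat.lt_succ_iff.mp (Finset.mem_range.mp hi)
  rw [coeff_C_mul, Nat.succ_sub hi', pow_succ, mul_smul, smul_mul_assoc, mul_smul_comm]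
  congr 2
  ring

theorem PencilIndep.homog_mul (a c : A) (n : ℕ) (l : K) (q : K[X]) (hq : q.natDegree ≤ n) :
    PencilIndep.homog a c (n + 1) ((X - C l) * q) = (c - l • a) * PencilIndep.homog a c n q := by
  rw [sub_mul, PencilIndep.homog_sub, PencilIndep.homog_X_mul, PencilIndep.homog_C_mul a c n l q hq,
    sub_mul]

theorem PencilIndep.apply_homog (Q : A →ₐ[K] K) (a c : A) (ha : Q a = 1) (n : ℕ) (p : K[X])
    (hp : p.natDegree ≤ n) : Q (PencilIndep.homog a c n p) = p.eval (Q c) := by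
  rw [PencilIndep.homog, map_sum, eval_eq_sum_range' (Nat.lt_succ_of_le hp)]
  refine Finset.sum_congr rfl fun i _ => ?_
  rw [map_smul, map_mul, map_pow, map_pow, ha, one_pow, mul_one, smul_eq_mul]

/-- division by a uniformiser in a Dedekind domain. -/
theorem PencilIndep.mem_pow_of_mul_mem [IsDedekindDomain A] {𝔪 : Ideal A} (hp : Prime 𝔪) {x z : A}
    (hx : x ∈ 𝔪) (hx2 : x ∉ 𝔪 ^ 2) {e : ℕ} (h : x * z ∈ 𝔪 ^ (e + 1)) : z ∈ 𝔪 ^ e := by
  rw [← Ideal.dvd_span_singleton] at hx hx2 h ⊢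
  obtain ⟨J, hJ⟩ := hx
  have hJ' : ¬ 𝔪 ∣ J := by
    rintro ⟨J', rfl⟩
    apply hx2
    rw [hJ, sq, ← mul_assoc]
    exact dvd_mul_right _ _
  rw [← Ideal.span_singleton_mul_span_singleton, hJ, pow_succ', mul_assoc] at h
  have h' := (mul_dvd_mul_iff_left hp.ne_zero).mp h
  exact hp.pow_dvd_of_dvd_mul_left e hJ' h'

/-- the order of vanishing of the homogenisation at a point bounds the multiplicity of the root. -/
theorem PencilIndep.pow_dvd_of_homog_mem [IsDedekindDomain A] (Q : A →ₐ[K] K) (a c : A)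
    (ha : Q a = 1) (h3 : Q c • a - c ∉ RingHom.ker (Q : A →+* K) ^ 2) (e : ℕ) :
    ∀ (n : ℕ) (p : K[X]), p.natDegree ≤ n →
      PencilIndep.homog a c n p ∈ RingHom.ker (Q : A →+* K) ^ e → (X - C (Q c)) ^ e ∣ p := by
  set 𝔪 : Ideal A := RingHom.ker (Q : A →+* K) with h𝔪
  have hmem : ∀ z : A, z ∈ 𝔪 ↔ Q z = 0 := fun z => Iff.rfl
  have hx : c - Q c • a ∈ 𝔪 := by
    rw [hmem, map_sub, map_smul, ha, smul_eq_mul, mul_one, sub_self]
  have hx2 : c - Q c • a ∉ 𝔪 ^ 2 := by
    intro h
    apply h3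
    have := (𝔪 ^ 2).neg_mem h
    rwa [neg_sub] at this
  have hsurj : Function.Surjective (Q : A →+* K) := fun z =>
    ⟨algebraMap K A z, Q.commutes z⟩
  have hmax : 𝔪.IsMaximal := RingHom.ker_isMaximal_of_surjective _ hsurj
  have hbot : 𝔪 ≠ ⊥ := by
    intro hb
    apply hx2
    rw [hb] at hx
    rw [(Submodule.mem_bot A).mp hx]
    exact Ideal.zero_mem _
  have hprime : Prime 𝔪 := Ideal.prime_of_isPrime hbot hmax.isPrime
  induction e with
  | zero =>
    intro n p _ _
    rw [pow_zero]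
    exact one_dvd _
  | succ e ih =>
    intro n p hp hH
    by_cases hp0 : p = 0
    · rw [hp0]
      exact dvd_zero _
    have hH1 : PencilIndep.homog a c n p ∈ 𝔪 :=
      Ideal.pow_le_self (Nat.succ_ne_zero e) hH
    rw [hmem, PencilIndep.apply_homog Q a c ha n p hp] at hH1
    obtain ⟨p₁, rfl⟩ := dvd_iff_isRoot.mpr hH1
    have hp₁ : p₁ ≠ 0 := right_ne_zero_of_mul hp0
    have hdeg : ((X - C (Q c)) * p₁).natDegree = 1 + p₁.natDegree := by
      rw [natDegree_mul (X_sub_C_ne_zero _) hp₁, natDegree_X_sub_C]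
    obtain ⟨n', rfl⟩ : ∃ n', n = n' + 1 := ⟨n - 1, by omega⟩
    have hp₁n : p₁.natDegree ≤ n' := by omega
    rw [PencilIndep.homog_mul a c n' _ p₁ hp₁n] at hH
    have h1 := ih n' p₁ hp₁n (PencilIndep.mem_pow_of_mul_mem hprime hx hx2 hH)
    rw [pow_succ']
    exact mul_dvd_mul_left _ h1

/-- A3b: a good pencil is independent modulo `t - α` (no freeness hypothesis here). -/
theorem pencil_indep [IsDedekindDomain A] (α : K) (F : Multiset (A →ₐ[K] K)) (hcard : F.card = d)
    (hcount : ∀ Q ∈ F, t - algebraMap K A α ∈ RingHom.ker (Q : A →+* K) ^ F.count Q)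
    (a c : A) (h1 : ∀ Q ∈ F, Q a = 1) (h2 : ∀ P ∈ F, ∀ Q ∈ F, P ≠ Q → P c ≠ Q c)
    (h3 : ∀ Q ∈ F, Q c • a - c ∉ RingHom.ker (Q : A →+* K) ^ 2)
    (k : Fin d → K) (hk : ∑ i, k i • pen a c i ∈ Ideal.span {t - algebraMap K A α}) : k = 0 := by
  rcases Nat.eq_zero_or_pos d with rfl | hd
  · exact Subsingleton.elim _ _
  obtain ⟨n, rfl⟩ : ∃ n, d = n + 1 := ⟨d - 1, by omega⟩
  set p : K[X] := ofFn (n + 1) k with hp
  have hdeg : p.natDegree ≤ n := Nat.lt_succ_iff.mp (ofFn_natDegree_lt (Nat.succ_pos n) k)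
  have hH : ∑ i, k i • pen a c i = PencilIndep.homog a c n p := by
    rw [PencilIndep.homog, ← Fin.sum_univ_eq_sum_range
      (fun i => p.coeff i • (c ^ i * a ^ (n - i))) (n + 1)]
    refine Finset.sum_congr rfl fun i _ => ?_
    rw [hp, ofFn_coeff_eq_val_of_lt k i.2, pen, Fin.val_rev, Nat.add_sub_add_right]
  by_contra hk0
  have hp0 : p ≠ 0 := by
    intro h
    apply hk0
    funext i
    have := ofFn_coeff_eq_val_of_lt k i.2
    rw [← hp, h, coeff_zero] at this
    exact this.symm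
  have hdvd : ∀ Q ∈ F, (X - C (Q c)) ^ F.count Q ∣ p := by
    intro Q hQ
    refine PencilIndep.pow_dvd_of_homog_mem Q a c (h1 Q hQ) (h3 Q hQ) _ n p hdeg ?_
    rw [← hH]
    have hle : Ideal.span {t - algebraMap K A α} ≤ RingHom.ker (Q : A →+* K) ^ F.count Q := by
      rw [Ideal.span_singleton_le_iff_mem]
      exact hcount Q hQ
    exact hle hk
  have hle : F.map (fun Q => Q c) ≤ p.roots := by
    rw [Multiset.le_iff_count]
    intro l
    by_cases hl : l ∈ F.map (fun Q => Q c)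
    · obtain ⟨Q, hQ, rfl⟩ := Multiset.mem_map.mp hl
      have hinj : Set.InjOn (fun Q : A →ₐ[K] K => Q c) {x | x ∈ F} := by
        intro P hP Q hQ hPQ
        by_contra hne
        exact h2 P hP Q hQ hne hPQ
      rw [Multiset.count_map_eq_count _ _ hinj Q hQ, count_roots]
      exact (le_rootMultiplicity_iff hp0).mpr (hdvd Q hQ)
    · rw [Multiset.count_eq_zero_of_notMem hl]
      exact Nat.zero_le _
  have h4 := Multiset.card_le_card hle
  rw [Multiset.card_map, hcard] at h4
  have h5 := card_roots' p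
  omega

end Abstract

end Fermat.Agent.S17.H.X2
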