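import Fermat.Agent.S17.H.NullHom
import Fermat.Agent.S17.H.AbsBasic

/-!
# S17/H, block X2, task W4: families of polynomials of degree `≤ D` without common zero on `ℙ¹`

Owner of this file: helper252.
-/

set_option autoImplicit false

noncomputable section

open scoped Classical

namespace Fermat.Agent.S17.H.X2

open Fermat.Agent.S17.H Polynomial

/-- the homogenisation of degree `D` of a polynomial of degree `≤ D`. -/
def projLowerHom (D : ℕ) (g : Qb[X]) : MvPolynomial (Fin 2) Qb :=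
  ∑ i ∈ Finset.range (D + 1),
    MvPolynomial.C (g.coeff i) * MvPolynomial.X 0 ^ (D - i) * MvPolynomial.X 1 ^ i

theorem projLower_eval_hom (D : ℕ) (g : Qb[X]) (x : Fin 2 → Qb) :
    MvPolynomial.eval x (projLowerHom D g) =
      ∑ i ∈ Finset.range (D + 1), g.coeff i * x 0 ^ (D - i) * x 1 ^ i := by
  simp [projLowerHom]

theorem projLower_eval_smul (D : ℕ) (g : Qb[X]) (s : Qb) (x : Fin 2 → Qb) :
    MvPolynomial.eval (s • x) (projLowerHom D g) =
      s ^ D * MvPolynomial.eval x (projLowerHom D g) := by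
  rw [projLower_eval_hom, projLower_eval_hom, Finset.mul_sum]
  refine Finset.sum_congr rfl fun i hi => ?_
  have hi' : i ≤ D := Nat.lt_succ_iff.1 (Finset.mem_range.1 hi)
  have hs : s ^ D = s ^ (D - i) * s ^ i := by rw [← pow_add, Nat.sub_add_cancel hi']
  simp only [Pi.smul_apply, smul_eq_mul, mul_pow]
  rw [hs]; ring

theorem projLower_eval_of_ne (D : ℕ) {g : Qb[X]} (hg : g.natDegree ≤ D) {x : Fin 2 → Qb}
    (hx : x 0 ≠ 0) :
    MvPolynomial.eval x (projLowerHom D g) = x 0 ^ D * g.eval (x 1 / x 0) := by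
  rw [projLower_eval_hom, Polynomial.eval_eq_sum_range' (Nat.lt_succ_iff.2 hg), Finset.mul_sum]
  refine Finset.sum_congr rfl fun i hi => ?_
  have hi' : i ≤ D := Nat.lt_succ_iff.1 (Finset.mem_range.1 hi)
  have hs : x 0 ^ D = x 0 ^ (D - i) * x 0 ^ i := by rw [← pow_add, Nat.sub_add_cancel hi']
  rw [hs, div_pow]
  field_simp

theorem projLower_eval_of_eq (D : ℕ) (g : Qb[X]) {x : Fin 2 → Qb} (hx : x 0 = 0) :
    MvPolynomial.eval x (projLowerHom D g) = g.coeff D * x 1 ^ D := by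
  rw [projLower_eval_hom, Finset.sum_eq_single D]
  · simp
  · intro i hi hne
    have hi' : i ≤ D := Nat.lt_succ_iff.1 (Finset.mem_range.1 hi)
    have : D - i ≠ 0 := by omega
    rw [hx, zero_pow this]; ring
  · intro h
    exact absurd (Finset.mem_range.2 (Nat.lt_succ_self D)) h

theorem projLower_vnorm (𝔳 : AbsFam) (v : Pl) (α : Qb) : vnorm 𝔳 v ![1, α] = mx 𝔳 v α := by
  refine le_antisymm (vnorm_le 𝔳 v (mx_pos 𝔳 v α).le ?_) (max_le ?_ ?_)
  · rw [Fin.forall_fin_two]
    refine ⟨?_, ?_⟩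
    · simpa using one_le_mx 𝔳 v α
    · simpa using av_le_mx 𝔳 v α
  · simpa using le_vnorm 𝔳 v ![1, α] 0
  · simpa using le_vnorm 𝔳 v ![1, α] 1

variable (𝔳 : AbsFam)

/-- W4: families of polynomials of degree `≤ D` without common zero on `ℙ¹`. -/
theorem proj_lower (D : ℕ) {ι : Type} (g : ι → Qb[X]) (hdeg : ∀ k, (g k).natDegree ≤ D)
    (h1 : ∀ α : Qb, ∃ k, (g k).eval α ≠ 0) (h2 : ∃ k, (g k).coeff D ≠ 0) :
    ∃ (S : Finset ι) (γ : MConst), ∀ (v : Pl) (α : Qb), ∃ k ∈ S,
      mx 𝔳 v α ^ D ≤ Real.exp (γ.c v) * 𝔳.av v ((g k).eval α) := by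
  obtain ⟨S, γ, h⟩ := hom_lower 𝔳 (fun k => projLowerHom D (g k)) D
    (fun k s x => projLower_eval_smul D (g k) s x) (fun x hx => by
      by_cases h0 : x 0 = 0
      · obtain ⟨k, hk⟩ := h2
        refine ⟨k, ?_⟩
        rw [projLower_eval_of_eq D (g k) h0]
        have hx1 : x 1 ≠ 0 := by
          intro h1'
          apply hx
          funext i
          fin_cases i
          · exact h0
          · exact h1'
        exact mul_ne_zero hk (pow_ne_zero _ hx1)
      · obtain ⟨k, hk⟩ := h1 (x 1 / x 0)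
        refine ⟨k, ?_⟩
        rw [projLower_eval_of_ne D (hdeg k) h0]
        exact mul_ne_zero (pow_ne_zero _ h0) hk)
  refine ⟨S, γ, fun v α => ?_⟩
  have hne : (![1, α] : Fin 2 → Qb) ≠ 0 := fun h0 => by
    have := congrFun h0 0
    simp at this
  obtain ⟨k, hk, hle⟩ := h v ![1, α] hne
  refine ⟨k, hk, ?_⟩
  rw [projLower_vnorm, projLower_eval_of_ne D (hdeg k) (by simp)] at hle
  simpa using hle

end Fermat.Agent.S17.H.X2
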