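import Fermat.Agent.S17.H.X2.Defs
import Fermat.Agent.S17.H.Apery

/-!
# S17, part H, block X2, node W3: rationality of Apéry coordinates and of the discriminant (helper111)
-/

set_option autoImplicit false

noncomputable section

open scoped Classical

namespace Fermat.Agent.S17.H.X2

open Fermat.Agent.S17.H Polynomial

variable {A : Type} [CommRing A] [Algebra Qb A] (C : WCurve A)

variable (hy : ∀ f : A, ∃! p : Fin C.d → Qb[X], f = ∑ j, aeval C.t (p j) * C.b (ap C j))

theorem rational_co_eq_aperyCoeff (f : A) : co hy f = aperyCoeff C f :=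
  co_unique hy (aperyCoeff_spec C f)

/-- W3a: the coordinates of a rational function are rational polynomials. -/
theorem co_isRat {f : A} (hf : C.IsRat f) (j : Fin C.d) :
    ∃ q : ℚ[X], co hy f j = q.map (algebraMap ℚ Qb) := by
  obtain ⟨q, hq⟩ := aperyCoeff_isRat C hf
  exact ⟨q j, by rw [rational_co_eq_aperyCoeff, hq j]⟩

theorem rational_Tr_isRat {f : A} (hf : C.IsRat f) :
    ∃ q : ℚ[X], Tr hy f = q.map (algebraMap ℚ Qb) := by
  have h := fun k : Fin C.d => co_isRat C hy (isRat_mul C hf (isRat_b C (ap C k))) k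
  choose q hq using h
  refine ⟨∑ k, q k, ?_⟩
  rw [Polynomial.map_sum]
  show ∑ k, co hy (f * C.b (ap C k)) k = _
  exact Finset.sum_congr rfl fun k _ => hq k

/-- W3b. -/
theorem Disc_isRat : ∃ Δ : ℚ[X], Disc hy = Δ.map (algebraMap ℚ Qb) := by
  have h := fun i j : Fin C.d =>
    rational_Tr_isRat C hy (isRat_mul C (isRat_b C (ap C i)) (isRat_b C (ap C j)))
  choose q hq using h
  refine ⟨Matrix.det (Matrix.of q), ?_⟩
  rw [← Polynomial.coe_mapRingHom, RingHom.map_det]
  unfold Disc
  congr 1
  ext i j : 2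
  rw [hq i j]
  rfl

end Fermat.Agent.S17.H.X2
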