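import Fermat.Agent.S17.H.X2.DiscNeZero
import Fermat.Agent.S17.H.X2.FibreDet
import Fermat.Agent.S17.H.X2.PencilIndep
import Fermat.Agent.S17.H.X2.JdetDegree
import Fermat.Agent.S17.H.X2.Rational
import Fermat.Agent.S17.H.X2.ProjLower
import Fermat.Agent.S17.H.CountFib
import Fermat.Agent.S17.H.Pencil
import Fermat.Agent.S17.H.PencilBound

/-!
# S17, part H, block X2: `same_fibre_lower` (assembly)

Pencil Vandermonde: for a pencil `(a, c)`, `a ∈ V (m-1)`, `c ∈ V m`, the product of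
`a(P) c(Q) - c(P) a(Q)` over the ordered pairs of distinct points of an unramified fibre over `α` is
`± Disc(α) * Jdet(a,c)(α)^2`; the polynomials `Jdet(a,c)` have degree `≤ (d-1)(m-1) - g` and no
common zero on the projective line.  Owner of this file: helper142.
-/

set_option autoImplicit false

noncomputable section

open scoped Classical

namespace Fermat.Agent.S17.H.X2

open Fermat.Agent.S17.H Polynomial

variable (𝔳 : AbsFam) {A : Type} [CommRing A] [Algebra Qb A] (C : WCurve A)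

/-- the local inequality for one pencil. -/
theorem main_local (hy : ∀ f : A, ∃! p : Fin C.d → Qb[X], f = ∑ j, aeval C.t (p j) * C.b (ap C j))
    (m D : ℕ) (v : Pl) (α : Qb) (hα : (Disc hy).eval α ≠ 0) (F : Finset (Pt A))
    (hF : ∀ P, P ∈ F ↔ P C.t = α) (a c : A) (g0 g1 : ℝ)
    (h0 : mx 𝔳 v α ^ D ≤ Real.exp g0 * 𝔳.av v ((Jdet hy a c).eval α))
    (h1 : ∀ P Q : Pt A, 𝔳.av v (P a * Q c - P c * Q a) ≤ Real.exp g1 * C.w2 𝔳 m v P Q) :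
    Real.log (𝔳.av v ((Disc hy).eval α)) + 2 * (D : ℝ) * Real.log (mx 𝔳 v α) ≤
      ∑ x ∈ F.offDiag, Real.log (C.w2 𝔳 m v x.1 x.2) + (2 * g0 + F.offDiag.card * g1) := by
  have hprod := prod_offDiag hy (𝔳.av v) α hα F hF a c
  have hD : 0 < 𝔳.av v ((Disc hy).eval α) := (𝔳.av v).pos hα
  have hmx : 0 < mx 𝔳 v α ^ D := pow_pos (mx_pos 𝔳 v α) D
  have hJ : 0 < 𝔳.av v ((Jdet hy a c).eval α) := by
    by_contra h
    have h' : 𝔳.av v ((Jdet hy a c).eval α) = 0 := le_antisymm (not_lt.mp h) ((𝔳.av v).nonneg _)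
    rw [h', mul_zero] at h0
    exact absurd h0 (not_le.mpr hmx)
  have hne : ∏ x ∈ F.offDiag, 𝔳.av v (x.1 a * x.2 c - x.1 c * x.2 a) ≠ 0 := by
    rw [hprod]; positivity
  rw [Finset.prod_ne_zero_iff] at hne
  have hU : ∀ x ∈ F.offDiag, 0 < 𝔳.av v (x.1 a * x.2 c - x.1 c * x.2 a) := fun x hx =>
    lt_of_le_of_ne ((𝔳.av v).nonneg _) (hne x hx).symm
  have hlog : ∑ x ∈ F.offDiag, Real.log (𝔳.av v (x.1 a * x.2 c - x.1 c * x.2 a)) =
      Real.log (𝔳.av v ((Disc hy).eval α)) + 2 * Real.log (𝔳.av v ((Jdet hy a c).eval α)) := by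
    rw [← Real.log_prod (fun x hx => hne x hx), hprod, Real.log_mul hD.ne' (by positivity),
      Real.log_pow]
    norm_num
  have hle : ∀ x ∈ F.offDiag, Real.log (𝔳.av v (x.1 a * x.2 c - x.1 c * x.2 a)) ≤
      Real.log (C.w2 𝔳 m v x.1 x.2) + g1 := by
    intro x hx
    have h2 := h1 x.1 x.2
    have hw : 0 < C.w2 𝔳 m v x.1 x.2 := by
      by_contra h
      have : Real.exp g1 * C.w2 𝔳 m v x.1 x.2 ≤ 0 :=
        mul_nonpos_of_nonneg_of_nonpos (Real.exp_pos _).le (not_lt.mp h)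
      linarith [hU x hx]
    have h3 := Real.log_le_log (hU x hx) h2
    rw [Real.log_mul (Real.exp_pos _).ne' hw.ne', Real.log_exp] at h3
    linarith
  have hsum := Finset.sum_le_sum hle
  rw [Finset.sum_add_distrib, Finset.sum_const, nsmul_eq_mul, hlog] at hsum
  have h4 := Real.log_le_log hmx h0
  rw [Real.log_mul (Real.exp_pos _).ne' hJ.ne', Real.log_exp, Real.log_pow] at h4
  linarith

theorem same_fibre_lower_of [IsDedekindDomain A]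
    (hy : ∀ f : A, ∃! p : Fin C.d → Qb[X], f = ∑ j, aeval C.t (p j) * C.b (ap C j))
    (hwt : ∀ (p : Fin C.d → Qb[X]) (j : Fin C.d), p j ≠ 0 →
      C.d * (p j).natDegree + C.ρ (ap C j) ≤ C.wt (∑ j, aeval C.t (p j) * C.b (ap C j)))
    (h_count : ∀ β : Qb, ∃ F : Multiset (Pt A), F.card = C.d ∧ (∀ Q, Q ∈ F ↔ Q C.t = β) ∧
      ∀ Q ∈ F, C.t - algebraMap Qb A β ∈ RingHom.ker (Q : A →+* Qb) ^ F.count Q)
    (h_pencil : ∀ (S : Finset (Pt A)) (m : ℕ), 2 * S.card + 2 * C.g + 2 ≤ m →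
      ∃ a c : A, C.wt a = m - 1 ∧ C.wt c = m ∧ (∀ Q ∈ S, Q a = 1) ∧
        (∀ P ∈ S, ∀ Q ∈ S, P ≠ Q → P c ≠ Q c) ∧
        ∀ Q ∈ S, Q c • a - c ∉ RingHom.ker (Q : A →+* Qb) ^ 2)
    (h_av : ∀ (m : ℕ) (a c : A), a ∈ C.V m → c ∈ C.V m →
      ∃ γ : MConst, ∀ (v : Pl) (P Q : Pt A),
        𝔳.av v (P a * Q c - P c * Q a) ≤ Real.exp (γ.c v) * C.w2 𝔳 m v P Q) :
    ∃ Δ : ℚ[X], Δ ≠ 0 ∧
    (∀ α : Qb, aeval α Δ ≠ 0 → ∃ F : Finset (Pt A), (∀ P, P ∈ F ↔ P C.t = α) ∧ F.card = C.d) ∧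
    ∃ m₀ : ℕ, ∀ m : ℕ, m₀ ≤ m → ∃ γ : MConst, ∀ (v : Pl) (α : Qb), aeval α Δ ≠ 0 →
      ∀ F : Finset (Pt A), (∀ P, P ∈ F ↔ P C.t = α) →
      Real.log (𝔳.av v (aeval α Δ)) +
        2 * (((C.d : ℝ) - 1) * ((m : ℝ) - 1) - C.g) * Real.log (mx 𝔳 v α) ≤
      ∑ x ∈ F.offDiag, Real.log (C.w2 𝔳 m v x.1 x.2) + γ.c v := by
  obtain ⟨Δ, hΔ⟩ := Disc_isRat C hy
  have hev : ∀ α : Qb, aeval α Δ = (Disc hy).eval α := by
    intro α
    rw [hΔ, eval_map_algebraMap]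
  refine ⟨Δ, ?_, ?_, 2 * C.d + 2 * C.g + 2, ?_⟩
  · rintro rfl
    exact Disc_ne_zero hy (by rw [hΔ, Polynomial.map_zero])
  · intro α hα
    rw [hev] at hα
    exact exists_finset_fibre hy α hα
  intro m hm
  have hd : 0 < C.d := d_pos C
  set D : ℕ := (C.d - 1) * (m - 1) - C.g with hDdef
  have hgle : C.g ≤ (C.d - 1) * (m - 1) := g_le C (by omega)
  have hDcast : ((C.d : ℝ) - 1) * ((m : ℝ) - 1) - C.g = (D : ℝ) := by
    rw [hDdef, Nat.cast_sub hgle, Nat.cast_mul, Nat.cast_sub (by omega), Nat.cast_sub (by omega)]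
    norm_num
  -- the family of all pencils
  let ι : Type := {p : A × A // p.1 ∈ C.V (m - 1) ∧ p.2 ∈ C.V m}
  let gg : ι → Qb[X] := fun k => Jdet hy k.1.1 k.1.2
  have hdeg : ∀ k, (gg k).natDegree ≤ D := fun k =>
    natDegree_Jdet_le C hy hwt (by omega) k.2.1 k.2.2
  have hfin : ∀ α : Qb, ∃ k, (gg k).eval α ≠ 0 := by
    intro α
    obtain ⟨F, hcard, hmem, hcount⟩ := h_count α
    have hS : F.toFinset.card ≤ C.d := hcard ▸ Multiset.toFinset_card_le F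
    obtain ⟨a, c, ha, hc, h1, h2, h3⟩ := h_pencil F.toFinset m (by omega)
    refine ⟨⟨(a, c), (mem_V_iff C _ _).2 ha.le, (mem_V_iff C _ _).2 hc.le⟩, ?_⟩
    refine Jdet_eval_ne_zero hy α a c fun k hk => ?_
    exact pencil_indep α F hcard hcount a c (fun Q hQ => h1 Q (Multiset.mem_toFinset.2 hQ))
      (fun P hP Q hQ => h2 P (Multiset.mem_toFinset.2 hP) Q (Multiset.mem_toFinset.2 hQ))
      (fun Q hQ => h3 Q (Multiset.mem_toFinset.2 hQ)) k hk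
  have hinf : ∃ k, (gg k).coeff D ≠ 0 := by
    obtain ⟨a, c, ha, hc, -⟩ := h_pencil ∅ m (by simp; omega)
    exact ⟨⟨(a, c), (mem_V_iff C _ _).2 ha.le, (mem_V_iff C _ _).2 hc.le⟩,
      coeff_Jdet_ne_zero C hy hwt (by omega) ha hc⟩
  obtain ⟨S, γ₀, hS⟩ := proj_lower 𝔳 D gg hdeg hfin hinf
  have hav : ∀ k : ι, ∃ γ : MConst, ∀ (v : Pl) (P Q : Pt A),
      𝔳.av v (P k.1.1 * Q k.1.2 - P k.1.2 * Q k.1.1) ≤ Real.exp (γ.c v) * C.w2 𝔳 m v P Q :=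
    fun k => h_av m k.1.1 k.1.2 (V_mono C (Nat.sub_le m 1) k.2.1) k.2.2
  choose γ₁ hγ₁ using hav
  refine ⟨2 • γ₀ + (C.d * C.d) • ∑ k ∈ S, γ₁ k, ?_⟩
  intro v α hα F hF
  rw [hev] at hα ⊢
  obtain ⟨k, hkS, hk⟩ := hS v α
  have hmain := main_local 𝔳 C hy m D v α hα F hF k.1.1 k.1.2 (γ₀.c v) ((γ₁ k).c v) hk (hγ₁ k v)
  rw [hDcast]
  have hcardF : F.card = C.d := by
    obtain ⟨F', hF', hc'⟩ := exists_finset_fibre hy α hα
    have : F = F' := by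
      ext P
      rw [hF, hF']
    rw [this, hc']
  have hoff : (F.offDiag.card : ℝ) ≤ ((C.d * C.d : ℕ) : ℝ) := by
    rw [Finset.offDiag_card, hcardF]
    exact_mod_cast Nat.sub_le _ _
  have hγk : (γ₁ k).c v ≤ (∑ k ∈ S, γ₁ k).c v := MConst.le_sum_c v S γ₁ hkS
  have hnn : 0 ≤ (γ₁ k).c v := (γ₁ k).nonneg v
  have hnn2 : 0 ≤ (∑ k ∈ S, γ₁ k).c v := (∑ k ∈ S, γ₁ k).nonneg v
  have h5 : (F.offDiag.card : ℝ) * (γ₁ k).c v ≤ ((C.d * C.d : ℕ) : ℝ) * (∑ k ∈ S, γ₁ k).c v :=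
    mul_le_mul hoff hγk hnn (Nat.cast_nonneg _)
  rw [MConst.add_c, MConst.nsmul_c, MConst.nsmul_c]
  push_cast at h5 ⊢
  linarith

end Fermat.Agent.S17.H.X2

namespace Fermat.Agent.S17.H

open Polynomial

variable (𝔳 : AbsFam) {A : Type} [CommRing A] [Algebra Qb A] (C : WCurve A)

/-- (X2) same fibre; `Δ` is the discriminant of `A` over `ℚ̄[t]`. -/
theorem same_fibre_lower [IsDedekindDomain A] : ∃ Δ : ℚ[X], Δ ≠ 0 ∧
    (∀ α : Qb, aeval α Δ ≠ 0 → ∃ F : Finset (Pt A), (∀ P, P ∈ F ↔ P C.t = α) ∧ F.card = C.d) ∧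
    ∃ m₀ : ℕ, ∀ m : ℕ, m₀ ≤ m → ∃ γ : MConst, ∀ (v : Pl) (α : Qb), aeval α Δ ≠ 0 → ∀ F : Finset (Pt A),
      (∀ P, P ∈ F ↔ P C.t = α) →
      Real.log (𝔳.av v (aeval α Δ)) +
        2 * (((C.d : ℝ) - 1) * ((m : ℝ) - 1) - C.g) * Real.log (mx 𝔳 v α) ≤
      ∑ x ∈ F.offDiag, Real.log (C.w2 𝔳 m v x.1 x.2) + γ.c v :=
  X2.same_fibre_lower_of 𝔳 C (exists_unique_apery C) (wt_apery C)
    (fun β => ⟨Fib C β, card_Fib C β, fun _ => mem_Fib C, fun Q hQ => by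
      have h := (count_Fib C Q).1
      rw [(mem_Fib C).1 hQ] at h
      exact h⟩)
    (fun S _ hm => exists_good_pencil C S hm)
    (fun m _ _ ha hc => av_pencil_le 𝔳 C m ha hc)

end Fermat.Agent.S17.H
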