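import Mathlib

/-!
# S17, part H, block X2: algebras free over `K[t]`, abstractly

`A` is a commutative `K`-algebra, `t : A`, and `y : Fin d → A` is a basis of `A` over `K[t]`
(hypothesis `hy`).  Coordinates `co`, multiplication matrix `mm`, trace `Tr`, discriminant `Disc`,
the pencil elements `pen a c i = c ^ i * a ^ (d - 1 - i)` and the determinant `Jdet a c` of their
coordinates.  Owner of this file: helper142.
-/

set_option autoImplicit false

noncomputable section

open scoped Classical

namespace Fermat.Agent.S17.H.X2

open Polynomial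

variable {K : Type*} [Field K] {A : Type*} [CommRing A] [Algebra K A] {t : A} {d : ℕ}
  {y : Fin d → A} (hy : ∀ f : A, ∃! p : Fin d → K[X], f = ∑ j, aeval t (p j) * y j)

/-- coordinates in the basis `y` over `K[t]`. -/
def co (f : A) : Fin d → K[X] := (hy f).choose

theorem co_spec (f : A) : f = ∑ j, aeval t (co hy f j) * y j := (hy f).choose_spec.1

theorem co_unique {f : A} {p : Fin d → K[X]} (h : f = ∑ j, aeval t (p j) * y j) : co hy f = p :=
  ((hy f).choose_spec.2 p h).symm

theorem co_sum_aeval (p : Fin d → K[X]) : co hy (∑ j, aeval t (p j) * y j) = p := co_unique hy rfl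

theorem co_zero : co hy 0 = 0 := co_unique hy (by simp)

theorem co_add (f h : A) : co hy (f + h) = co hy f + co hy h := by
  apply co_unique
  conv_lhs => rw [co_spec hy f, co_spec hy h]
  rw [← Finset.sum_add_distrib]
  refine Finset.sum_congr rfl fun j _ => ?_
  rw [Pi.add_apply, map_add, add_mul]

theorem co_aeval_mul (p : K[X]) (f : A) : co hy (aeval t p * f) = fun j => p * co hy f j := by
  apply co_unique
  conv_lhs => rw [co_spec hy f]
  rw [Finset.mul_sum]
  refine Finset.sum_congr rfl fun j _ => ?_
  rw [map_mul, mul_assoc]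

theorem co_smul (k : K) (f : A) : co hy (k • f) = fun j => C k * co hy f j := by
  rw [← co_aeval_mul, aeval_C, Algebra.smul_def]

theorem co_neg (f : A) : co hy (-f) = -co hy f := by
  have h := co_add hy f (-f)
  rw [add_neg_cancel, co_zero] at h
  exact (neg_eq_of_add_eq_zero_right h.symm).symm

theorem co_sub (f h : A) : co hy (f - h) = co hy f - co hy h := by
  rw [sub_eq_add_neg, co_add, co_neg, sub_eq_add_neg]

theorem co_sum {ι : Type*} (s : Finset ι) (f : ι → A) :
    co hy (∑ i ∈ s, f i) = ∑ i ∈ s, co hy (f i) := by
  induction s using Finset.induction_on with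
  | empty => simp [co_zero]
  | insert a s ha ih => rw [Finset.sum_insert ha, Finset.sum_insert ha, co_add, ih]

theorem co_eq_zero_iff {f : A} : co hy f = 0 ↔ f = 0 := by
  constructor
  · intro h
    rw [co_spec hy f, h]
    simp
  · rintro rfl
    exact co_zero hy

theorem co_y (j : Fin d) : co hy (y j) = Pi.single j 1 := by
  apply co_unique
  rw [Finset.sum_eq_single j]
  · simp
  · intro b _ hb
    simp [Pi.single_eq_of_ne hb]
  · simp

/-- the value of `f` at a point in terms of the coordinates. -/
theorem apply_eq_sum (P : A →ₐ[K] K) (f : A) :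
    P f = ∑ j, (co hy f j).eval (P t) * P (y j) := by
  conv_lhs => rw [co_spec hy f]
  rw [map_sum]
  refine Finset.sum_congr rfl fun j _ => ?_
  rw [map_mul, ← aeval_algHom_apply, coe_aeval_eq_eval]

/-- the matrix of multiplication by `f`. -/
def mm (f : A) : Matrix (Fin d) (Fin d) K[X] := fun i j => co hy (f * y j) i

theorem mul_y_eq (f : A) (j : Fin d) : f * y j = ∑ i, aeval t (mm hy f i j) * y i :=
  co_spec hy (f * y j)

/-- the trace `A → K[T]`. -/
def Tr (f : A) : K[X] := (mm hy f).trace

/-- the discriminant of `A` over `K[t]`. -/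
def Disc : K[X] := Matrix.det (fun i j : Fin d => Tr hy (y i * y j))

/-- the monomials of degree `d - 1` in `a, c`. -/
def pen (a c : A) (i : Fin d) : A := c ^ (i : ℕ) * a ^ (i.rev : ℕ)

/-- coordinates of the monomials of degree `d - 1` in `a, c`. -/
def Jmat (a c : A) : Matrix (Fin d) (Fin d) K[X] := fun i j => co hy (pen a c i) j

/-- the determinant of the pencil `(a, c)`. -/
def Jdet (a c : A) : K[X] := (Jmat hy a c).det

end Fermat.Agent.S17.H.X2
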