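import Fermat.Agent.S17.H.X2.Defs

/-!
# S17, part H, block X2, node A1: the discriminant of a domain free over `K[t]` (char 0) is nonzero
Owner of this file: helper247.
-/

set_option autoImplicit false

noncomputable section

open scoped Classical

namespace Fermat.Agent.S17.H.X2

open Polynomial

section Abstract

variable {K : Type} [Field K] {A : Type} [CommRing A] [Algebra K A] {t : A} {d : ℕ}
  {y : Fin d → A} (hy : ∀ f : A, ∃! p : Fin d → K[X], f = ∑ j, aeval t (p j) * y j)

theorem discNeZero_Tr_add (f h : A) : Tr hy (f + h) = Tr hy f + Tr hy h := by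
  unfold Tr
  rw [← Matrix.trace_add]
  congr 1
  refine Matrix.ext fun i j => ?_
  show co hy ((f + h) * y j) i = co hy (f * y j) i + co hy (h * y j) i
  rw [add_mul, co_add, Pi.add_apply]

theorem discNeZero_Tr_zero : Tr hy 0 = 0 := by
  have h := discNeZero_Tr_add hy 0 0
  rw [add_zero] at h
  exact left_eq_add.mp h

theorem discNeZero_Tr_aeval_mul (p : K[X]) (h : A) : Tr hy (aeval t p * h) = p * Tr hy h := by
  unfold Tr Matrix.trace
  rw [Finset.mul_sum]
  refine Finset.sum_congr rfl fun i _ => ?_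
  show co hy (aeval t p * h * y i) i = p * co hy (h * y i) i
  rw [mul_assoc, co_aeval_mul]

theorem discNeZero_Tr_sum {ι : Type*} (s : Finset ι) (f : ι → A) :
    Tr hy (∑ i ∈ s, f i) = ∑ i ∈ s, Tr hy (f i) := by
  induction s using Finset.induction_on with
  | empty => simp [discNeZero_Tr_zero]
  | insert a s ha ih => rw [Finset.sum_insert ha, Finset.sum_insert ha, discNeZero_Tr_add, ih]

theorem discNeZero_Tr_one : Tr hy 1 = (d : K[X]) := by
  unfold Tr Matrix.trace
  have : ∀ i ∈ (Finset.univ : Finset (Fin d)), Matrix.diag (mm hy 1) i = 1 := by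
    intro i _
    show co hy (1 * y i) i = 1
    rw [one_mul, co_y, Pi.single_eq_same]
  rw [Finset.sum_congr rfl this]
  simp

theorem discNeZero_mul_comb (f : A) (w : Fin d → K[X]) :
    f * ∑ j, aeval t (w j) * y j = ∑ k, aeval t ((mm hy f).mulVec w k) * y k := by
  rw [Finset.mul_sum]
  have h1 : ∀ j, f * (aeval t (w j) * y j) = ∑ k, aeval t (mm hy f k j * w j) * y k := by
    intro j
    rw [mul_left_comm, mul_y_eq hy f j, Finset.mul_sum]
    refine Finset.sum_congr rfl fun k _ => ?_
    rw [map_mul]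
    ring
  simp only [h1]
  rw [Finset.sum_comm]
  refine Finset.sum_congr rfl fun k _ => ?_
  rw [← Finset.sum_mul, ← map_sum]
  rfl

theorem discNeZero_det_mm_ne_zero [IsDomain A] {f : A} (hf : f ≠ 0) : (mm hy f).det ≠ 0 := by
  intro h0
  obtain ⟨w, hw, hmw⟩ := Matrix.exists_mulVec_eq_zero_iff.mpr h0
  have h1 := discNeZero_mul_comb hy f w
  rw [hmw] at h1
  simp only [Pi.zero_apply, map_zero, zero_mul, Finset.sum_const_zero] at h1
  have h2 := (mul_eq_zero.mp h1).resolve_left hf
  apply hw
  rw [← co_sum_aeval hy w, h2, co_zero]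

/-- A1: the discriminant is not zero. -/
theorem Disc_ne_zero [IsDomain A] [CharZero K] : Disc hy ≠ 0 := by
  intro h0
  obtain ⟨v, hv, hMv⟩ := Matrix.exists_mulVec_eq_zero_iff.mpr h0
  set f : A := ∑ j, aeval t (v j) * y j with hf
  have hf0 : f ≠ 0 := by
    intro h
    apply hv
    rw [← co_sum_aeval hy v, ← hf, h, co_zero]
  have h1 : ∀ i, Tr hy (y i * f) = 0 := by
    intro i
    have h2 : y i * f = ∑ j, aeval t (v j) * (y i * y j) := by
      rw [hf, Finset.mul_sum]
      exact Finset.sum_congr rfl fun j _ => by ring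
    rw [h2, discNeZero_Tr_sum]
    simp only [discNeZero_Tr_aeval_mul]
    have h3 := congrFun hMv i
    simp only [Matrix.mulVec, dotProduct, Pi.zero_apply] at h3
    rw [← h3]
    exact Finset.sum_congr rfl fun j _ => by ring
  have h2 : ∀ h : A, Tr hy (h * f) = 0 := by
    intro h
    have h3 : h * f = ∑ i, aeval t (co hy h i) * (y i * f) := by
      conv_lhs => rw [co_spec hy h]
      rw [Finset.sum_mul]
      exact Finset.sum_congr rfl fun i _ => by ring
    rw [h3, discNeZero_Tr_sum]
    exact Finset.sum_eq_zero fun i _ => by rw [discNeZero_Tr_aeval_mul, h1, mul_zero]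
  have hN := discNeZero_det_mm_ne_zero hy hf0
  set N := (mm hy f).det with hNdef
  -- `f ∣ N(t)`
  set h : A := ∑ i, aeval t (((mm hy f).adjugate.mulVec (co hy 1)) i) * y i with hh
  have hfh : f * h = aeval t N := by
    rw [hh, discNeZero_mul_comb, Matrix.mulVec_mulVec, Matrix.mul_adjugate, Matrix.smul_mulVec,
      Matrix.one_mulVec]
    have h3 : (1 : A) = ∑ k, aeval t (co hy 1 k) * y k := co_spec hy 1
    conv_rhs => rw [← mul_one (aeval t N), h3, Finset.mul_sum]
    refine Finset.sum_congr rfl fun k _ => ?_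
    rw [Pi.smul_apply, smul_eq_mul, map_mul, mul_assoc]
  have h4 := h2 h
  rw [mul_comm, hfh, ← mul_one (aeval t N), discNeZero_Tr_aeval_mul, discNeZero_Tr_one] at h4
  have hd : (d : K[X]) = 0 := (mul_eq_zero.mp h4).resolve_left hN
  have hd0 : d = 0 := by exact_mod_cast hd
  subst hd0
  exact hf0 (by rw [hf]; simp)

end Abstract

end Fermat.Agent.S17.H.X2
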